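import Mathlib
import Fermat.Prelude.Def_FLTPrelim_Ramification
import Fermat.Agent.S54.ValRing

/-!
# S14, block LOCAL-D (helper366): valuations of rational numbers and of `ζ - 1`

`A` is a valuation subring of a field `L` of characteristic zero lying over the prime `p`.
-/

set_option autoImplicit false
set_option linter.style.haveILetI false

namespace Fermat.Agent.S14.H366

variable {L : Type*} [Field L] {A : ValuationSubring L} {p : ℕ}

theorem val_prime_lt_one (hA : A.LiesOverPrime p) : A.valuation (p : L) < 1 :=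
  (ValuationSubring.mem_nonunits_iff (A := A)).mp hA

theorem val_int_le_one (n : ℤ) : A.valuation (n : L) ≤ 1 :=
  (A.valuation_le_one_iff _).mpr (intCast_mem A n)

theorem val_nat_le_one (n : ℕ) : A.valuation (n : L) ≤ 1 :=
  (A.valuation_le_one_iff _).mpr (natCast_mem A n)

theorem val_int_eq_one (hp : p.Prime) (hA : A.LiesOverPrime p) (n : ℤ) (hn : ¬ (p : ℤ) ∣ n) :
    A.valuation (n : L) = 1 := by
  refine le_antisymm (val_int_le_one n) (not_lt.mp fun hlt => hn ?_)
  exact Fermat.Agent.S54.dvd_of_intCast_mem_nonunits A p hp hA n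
    ((ValuationSubring.mem_nonunits_iff (A := A)).mpr hlt)

theorem val_int_eq_pow (hp : p.Prime) (hA : A.LiesOverPrime p) (n : ℤ) (hn : n ≠ 0) :
    ∃ k : ℕ, A.valuation (n : L) = A.valuation (p : L) ^ k := by
  have hfin : FiniteMultiplicity (p : ℤ) n := by
    rw [Int.finiteMultiplicity_iff]
    exact ⟨by
      intro h
      have := hp.one_lt
      omega, hn⟩
  obtain ⟨c, hc, hcn⟩ := hfin.exists_eq_pow_mul_and_not_dvd
  refine ⟨multiplicity (p : ℤ) n, ?_⟩
  conv_lhs => rw [hc]
  push_cast
  rw [map_mul, map_pow, val_int_eq_one hp hA c hcn, mul_one]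

variable [CharZero L]

theorem val_prime_ne_zero (hp : p.Prime) : A.valuation (p : L) ≠ 0 :=
  (Valuation.ne_zero_iff _).mpr (Nat.cast_ne_zero.mpr hp.ne_zero)

/-- The valuation of a nonzero rational is an integral power of the valuation of `p`. -/
theorem val_rat_eq_zpow (hp : p.Prime) (hA : A.LiesOverPrime p) (q : ℚ) (hq : q ≠ 0) :
    ∃ k : ℤ, A.valuation (q : L) = A.valuation (p : L) ^ k := by
  obtain ⟨k₁, h₁⟩ := val_int_eq_pow (L := L) hp hA q.num (Rat.num_ne_zero.mpr hq)
  obtain ⟨k₂, h₂⟩ := val_int_eq_pow (L := L) hp hA (q.den : ℤ) (by exact_mod_cast q.den_ne_zero)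
  refine ⟨(k₁ : ℤ) - k₂, ?_⟩
  have hq' : (q : L) = (q.num : L) / ((q.den : ℤ) : L) := by
    conv_lhs => rw [← Rat.num_div_den q]
    push_cast
    rfl
  rw [hq', map_div₀, h₁, h₂, zpow_sub₀ (val_prime_ne_zero hp), zpow_natCast, zpow_natCast]

/-- A rational number in `A` is congruent to an integer modulo `p`. -/
theorem exists_int_sub_rat (hp : p.Prime) (hA : A.LiesOverPrime p) (q : ℚ)
    (hq : A.valuation (q : L) ≤ 1) :
    ∃ m : ℤ, A.valuation ((q : L) - (m : L)) ≤ A.valuation (p : L) := by
  have hden : ¬ (p : ℤ) ∣ (q.den : ℤ) := by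
    intro hd
    have hnum : ¬ (p : ℤ) ∣ q.num := by
      intro hn
      have h1 : (p : ℤ) ∣ Int.gcd q.num (q.den : ℤ) := Int.dvd_coe_gcd hn hd
      have h2 : Int.gcd q.num (q.den : ℤ) = 1 := by
        have := q.reduced
        simpa [Int.gcd, Nat.Coprime] using this
      rw [h2] at h1
      have := Int.le_of_dvd one_pos h1
      have := hp.one_lt
      omega
    have h3 : A.valuation ((q.den : ℤ) : L) < 1 := by
      obtain ⟨c, hc⟩ := hd
      rw [hc]
      push_cast
      rw [map_mul]
      calc A.valuation (p : L) * A.valuation (c : L)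
          ≤ A.valuation (p : L) * 1 := by
            gcongr
            exact val_int_le_one c
        _ < 1 := by
            rw [mul_one]
            exact val_prime_lt_one hA
    have h4 : (q : L) * ((q.den : ℤ) : L) = (q.num : L) := by
      have := Rat.mul_den_eq_num q
      have h5 : ((q * (q.den : ℚ) : ℚ) : L) = ((q.num : ℚ) : L) := by rw [this]
      push_cast at h5 ⊢
      exact h5
    have h6 := congrArg A.valuation h4
    rw [map_mul, val_int_eq_one hp hA _ hnum] at h6
    have h7 : A.valuation (q : L) * A.valuation ((q.den : ℤ) : L) < 1 := by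
      calc A.valuation (q : L) * A.valuation ((q.den : ℤ) : L)
          ≤ 1 * A.valuation ((q.den : ℤ) : L) := by
            gcongr
        _ < 1 := by
            rw [one_mul]
            exact h3
    rw [h6] at h7
    exact lt_irrefl _ h7
  have hcop : IsCoprime (p : ℤ) (q.den : ℤ) :=
    (Nat.prime_iff_prime_int.mp hp).coprime_iff_not_dvd.mpr hden
  obtain ⟨u, t, hut⟩ := hcop
  refine ⟨q.num * t, ?_⟩
  have hdv : A.valuation ((q.den : ℤ) : L) = 1 := val_int_eq_one hp hA _ hden
  have hd0 : ((q.den : ℤ) : L) ≠ 0 := by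
    have := q.den_ne_zero
    exact_mod_cast this
  have h4 : (q : L) * ((q.den : ℤ) : L) = (q.num : L) := by
    have := Rat.mul_den_eq_num q
    have h5 : ((q * (q.den : ℚ) : ℚ) : L) = ((q.num : ℚ) : L) := by rw [this]
    push_cast at h5 ⊢
    exact h5
  have key : ((q : L) - ((q.num * t : ℤ) : L)) * ((q.den : ℤ) : L) =
      (q.num : L) * (u : L) * (p : L) := by
    have h8 : ((u * (p : ℤ) + t * (q.den : ℤ) : ℤ) : L) = 1 := by rw [hut]; simp
    push_cast at h8 h4 ⊢
    linear_combination h4 - (q.num : L) * h8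
  have h9 := congrArg A.valuation key
  rw [map_mul, hdv, mul_one, map_mul, map_mul] at h9
  rw [h9]
  calc A.valuation (q.num : L) * A.valuation (u : L) * A.valuation (p : L)
      ≤ 1 * 1 * A.valuation (p : L) := by
        gcongr
        · exact val_int_le_one _
        · exact val_int_le_one _
    _ = A.valuation (p : L) := by rw [one_mul, one_mul]

end Fermat.Agent.S14.H366
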