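import Mathlib
import Fermat.Prelude.Def_FLTPrelim_Ramification
import Fermat.Agent.S14.H366.ValQ

/-!
# S14, block LOCAL-D (helper366): the valuation of `ζ - 1`

`A` is a valuation subring of a field `L` of characteristic zero lying over the prime `p`, and
`ζ` is a primitive `p`-th root of unity: `v (ζ - 1) ^ (p - 1) = v p`.
-/

set_option autoImplicit false
set_option linter.style.haveILetI false

namespace Fermat.Agent.S14.H366

variable {L : Type*} [Field L] {A : ValuationSubring L} {p : ℕ}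

theorem val_geom_sum_le_one {x : L} (hx : A.valuation x ≤ 1) (m : ℕ) :
    A.valuation (∑ i ∈ Finset.range m, x ^ i) ≤ 1 := by
  apply Valuation.map_sum_le
  intro i _
  rw [map_pow]
  exact pow_le_one₀ zero_le hx

theorem val_pow_sub_one_le {x : L} (hx : A.valuation x ≤ 1) (m : ℕ) :
    A.valuation (x ^ m - 1) ≤ A.valuation (x - 1) := by
  rw [← geom_sum_mul, map_mul]
  calc A.valuation (∑ i ∈ Finset.range m, x ^ i) * A.valuation (x - 1)
      ≤ 1 * A.valuation (x - 1) := by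
        gcongr
        exact val_geom_sum_le_one hx m
    _ = A.valuation (x - 1) := one_mul _

theorem val_root_eq_one {ζ : L} (hp : p.Prime) (hζ : IsPrimitiveRoot ζ p) :
    A.valuation ζ = 1 := by
  have h1 : A.valuation ζ ^ p = 1 := by rw [← map_pow, hζ.pow_eq_one, map_one]
  exact (pow_eq_one_iff_of_nonneg zero_le hp.ne_zero).mp h1

theorem val_root_pow_sub_one {ζ : L} (hp : p.Prime) (hζ : IsPrimitiveRoot ζ p) (j : ℕ)
    (hj : ¬ p ∣ j) : A.valuation (ζ ^ j - 1) = A.valuation (ζ - 1) := by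
  have hζ1 : A.valuation ζ ≤ 1 := (val_root_eq_one hp hζ).le
  refine le_antisymm (val_pow_sub_one_le hζ1 j) ?_
  have hcop : Nat.Coprime j p := ((Nat.Prime.coprime_iff_not_dvd hp).mpr hj).symm
  obtain ⟨m, -, hm⟩ := Nat.exists_mul_mod_eq_one_of_coprime hcop hp.one_lt
  have h2 : (ζ ^ j) ^ m = ζ := by
    rw [← pow_mul, ← pow_mod_orderOf, ← hζ.eq_orderOf, hm, pow_one]
  have h3 : A.valuation (ζ ^ j) ≤ 1 := by
    rw [map_pow]
    exact pow_le_one₀ zero_le hζ1
  have := val_pow_sub_one_le h3 m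
  rwa [h2] at this

theorem val_lam_pow {ζ : L} (hp : p.Prime) (hζ : IsPrimitiveRoot ζ p) :
    A.valuation (ζ - 1) ^ (p - 1) = A.valuation (p : L) := by
  obtain ⟨n, rfl⟩ : ∃ n, p = n + 1 := ⟨p - 1, (Nat.succ_pred_eq_of_pos hp.pos).symm⟩
  have h1 := hζ.prod_one_sub_pow_eq_order
  have h2 : ((n + 1 : ℕ) : L) = ∏ k ∈ Finset.range n, (1 - ζ ^ (k + 1)) := by
    rw [h1]
    push_cast
    rfl
  rw [h2, map_prod, Nat.add_sub_cancel]
  have h3 : ∀ k ∈ Finset.range n, A.valuation (1 - ζ ^ (k + 1)) = A.valuation (ζ - 1) := by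
    intro k hk
    rw [← Valuation.map_neg, neg_sub]
    apply val_root_pow_sub_one hp hζ
    intro hdvd
    have := Nat.le_of_dvd (Nat.succ_pos k) hdvd
    have := Finset.mem_range.mp hk
    omega
  rw [Finset.prod_congr rfl h3, Finset.prod_const, Finset.card_range]

theorem val_lam_lt_one {ζ : L} (hp : p.Prime) (hA : A.LiesOverPrime p)
    (hζ : IsPrimitiveRoot ζ p) : A.valuation (ζ - 1) < 1 := by
  by_contra hcon
  push Not at hcon
  have h1 : 1 ≤ A.valuation (ζ - 1) ^ (p - 1) := one_le_pow₀ hcon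
  rw [val_lam_pow hp hζ] at h1
  exact absurd (val_prime_lt_one hA) (not_lt.mpr h1)

theorem val_lam_ne_zero {ζ : L} (hp : p.Prime) (hζ : IsPrimitiveRoot ζ p) :
    A.valuation (ζ - 1) ≠ 0 := by
  rw [Valuation.ne_zero_iff]
  exact sub_ne_zero.mpr (hζ.ne_one hp.one_lt)

theorem val_prime_le_lam_pow {ζ : L} (hp : p.Prime) (hA : A.LiesOverPrime p)
    (hζ : IsPrimitiveRoot ζ p) {k : ℕ} (hk : k ≤ p - 1) :
    A.valuation (p : L) ≤ A.valuation (ζ - 1) ^ k := by
  rw [← val_lam_pow hp hζ]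
  exact pow_le_pow_of_le_one zero_le (val_lam_lt_one hp hA hζ).le hk

end Fermat.Agent.S14.H366
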