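import Mathlib
import Fermat.Prelude.Def_FLTPrelim_Ramification
import Fermat.Agent.S14.H366.ValLam
import Fermat.Agent.S14.H366.L834.Expand

/-!
# S14, block LOCAL-D (helper366): the local ring of `ℚ(ζ_p)` at `p`

`A` is a valuation subring of `ℚ̄` over `p` and `ζ` a primitive `p`-th root of unity.

* `exists_lam_expansion` : every element of `ℚ(ζ)` is a rational combination of
  `1, λ, …, λ ^ (p - 2)`, `λ = ζ - 1`.
* `exists_int_sub_le` : every element of `ℚ(ζ) ∩ A` is congruent to a rational integer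
  modulo `λ A`.
* `val_le_lam_of_lt_one` : an element of `ℚ(ζ)` which is a non-unit of `A` is divisible by `λ`.
-/

set_option autoImplicit false
set_option linter.style.haveILetI false

open Polynomial IntermediateField

namespace Fermat.Agent.S14.H366

open Fermat.Agent.S14.H366.L834 (Qb valuation_le_sum_of_distinct)

variable {A : ValuationSubring Qb} {p : ℕ}

/-- Every element of `ℚ(ζ)` is a `ℚ`-linear combination of `(ζ - 1) ^ i`, `i < p - 1`. -/
theorem exists_lam_expansion {ζ : Qb} (hp : p.Prime) (hζ : IsPrimitiveRoot ζ p) {y : Qb}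
    (hy : y ∈ ℚ⟮ζ⟯) :
    ∃ q : ℕ → ℚ, y = ∑ i ∈ Finset.range (p - 1), (q i : Qb) * (ζ - 1) ^ i := by
  have hint : IsIntegral ℚ ζ := (hζ.isIntegral hp.pos).tower_top
  have hyA : y ∈ Algebra.adjoin ℚ {ζ} := by
    rw [← IntermediateField.adjoin_simple_toSubalgebra_of_isAlgebraic hint.isAlgebraic]
    exact hy
  rw [Algebra.adjoin_singleton_eq_range_aeval] at hyA
  obtain ⟨g, rfl⟩ := hyA
  set f : ℚ[X] := (cyclotomic p ℚ).comp (X + C 1) with hf
  have hfm : f.Monic := (cyclotomic.monic p ℚ).comp_X_add_C 1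
  have hfd : f.natDegree = p - 1 := by
    rw [hf, natDegree_comp, natDegree_X_add_C, mul_one, natDegree_cyclotomic,
      Nat.totient_prime hp]
  have hfx : aeval (ζ - 1) f = 0 := by
    rw [hf, aeval_comp, map_add, aeval_X, aeval_C, map_one, sub_add_cancel]
    haveI : NeZero (p : Qb) := ⟨Nat.cast_ne_zero.mpr hp.ne_zero⟩
    have := (isRoot_cyclotomic_iff (R := Qb)).mpr hζ
    rw [IsRoot.def, ← map_cyclotomic p (algebraMap ℚ Qb), eval_map_algebraMap] at this
    exact this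
  set g' : ℚ[X] := g.comp (X + C 1) with hg'
  have hgx : aeval ζ g = aeval (ζ - 1) g' := by
    rw [hg', aeval_comp, map_add, aeval_X, aeval_C, map_one, sub_add_cancel]
  have hmod : aeval (ζ - 1) g' = aeval (ζ - 1) (g' %ₘ f) := by
    conv_lhs => rw [← Polynomial.modByMonic_add_div g' f]
    rw [map_add, map_mul, hfx, zero_mul, add_zero]
  have hp1 : p - 1 ≠ 0 := by
    have := hp.two_le
    omega
  have hdeg : (g' %ₘ f).natDegree < p - 1 := by
    rw [← hfd]
    apply Polynomial.natDegree_modByMonic_lt g' hfm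
    intro h1
    rw [h1] at hfd
    simp at hfd
    exact hp1 hfd.symm
  refine ⟨fun i => (g' %ₘ f).coeff i, ?_⟩
  show aeval ζ g = _
  rw [hgx, hmod, Polynomial.aeval_eq_sum_range' hdeg]
  apply Finset.sum_congr rfl
  intro i _
  rw [Algebra.smul_def, eq_ratCast]

/-- The valuation of a nonzero rational is an integral power of `v (ζ - 1) ^ (p - 1)`. -/
theorem val_rat_eq_lam_zpow {ζ : Qb} (hp : p.Prime) (hA : A.LiesOverPrime p)
    (hζ : IsPrimitiveRoot ζ p) (q : ℚ) (hq : q ≠ 0) :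
    ∃ k : ℤ, A.valuation (q : Qb) = A.valuation (ζ - 1) ^ ((p - 1 : ℕ) * k) := by
  obtain ⟨k, hk⟩ := val_rat_eq_zpow (L := Qb) hp hA q hq
  refine ⟨k, ?_⟩
  rw [hk, ← val_lam_pow hp hζ, zpow_mul, zpow_natCast]

/-- In an expansion `y = ∑ qᵢ λ ^ i` of an element of `A`, all coefficients lie in `A`. -/
theorem val_coeff_le_one {ζ : Qb} (hp : p.Prime) (hA : A.LiesOverPrime p)
    (hζ : IsPrimitiveRoot ζ p) (q : ℕ → ℚ)
    (hy : A.valuation (∑ i ∈ Finset.range (p - 1), (q i : Qb) * (ζ - 1) ^ i) ≤ 1) :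
    ∀ i ∈ Finset.range (p - 1), A.valuation (q i : Qb) ≤ 1 := by
  set lam := A.valuation (ζ - 1) with hlam
  have hl0 : lam ≠ 0 := val_lam_ne_zero hp hζ
  have hl0' : 0 < lam := zero_lt_iff.mpr hl0
  have hl1 : lam < 1 := val_lam_lt_one hp hA hζ
  -- valuation of a term
  have hterm : ∀ i, q i ≠ 0 → ∃ k : ℤ, A.valuation (q i : Qb) = lam ^ ((p - 1 : ℕ) * k) ∧
      A.valuation ((q i : Qb) * (ζ - 1) ^ i) = lam ^ ((p - 1 : ℕ) * k + i) := by
    intro i hi
    obtain ⟨k, hk⟩ := val_rat_eq_lam_zpow hp hA hζ (q i) hi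
    refine ⟨k, hk, ?_⟩
    rw [map_mul, map_pow, hk, zpow_add₀ hl0, zpow_natCast]
  have hdist : ∀ i ∈ Finset.range (p - 1), ∀ j ∈ Finset.range (p - 1), i ≠ j →
      A.valuation ((q i : Qb) * (ζ - 1) ^ i) = A.valuation ((q j : Qb) * (ζ - 1) ^ j) →
      A.valuation ((q i : Qb) * (ζ - 1) ^ i) = 0 := by
    intro i hi j hj hij heq
    by_contra hne
    have hqi : q i ≠ 0 := by
      rintro h0
      apply hne
      rw [h0, Rat.cast_zero, zero_mul, map_zero]
    have hqj : q j ≠ 0 := by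
      rintro h0
      apply hne
      rw [heq, h0, Rat.cast_zero, zero_mul, map_zero]
    obtain ⟨ki, -, hki⟩ := hterm i hqi
    obtain ⟨kj, -, hkj⟩ := hterm j hqj
    rw [hki, hkj] at heq
    have h1 : ((p - 1 : ℕ) : ℤ) * ki + i = ((p - 1 : ℕ) : ℤ) * kj + j :=
      (zpow_right_strictAnti₀ hl0' hl1).injective heq
    have hi' := Finset.mem_range.mp hi
    have hj' := Finset.mem_range.mp hj
    have h2 : ((p - 1 : ℕ) : ℤ) * (ki - kj) = (j : ℤ) - i := by linarith
    have h3 : ((p - 1 : ℕ) : ℤ) ∣ (j : ℤ) - i := ⟨ki - kj, h2.symm⟩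
    have h4 : (j : ℤ) - i = 0 := by
      apply Int.eq_zero_of_abs_lt_dvd h3
      rw [abs_lt]
      constructor <;> omega
    apply hij
    omega
  have hle := valuation_le_sum_of_distinct A.valuation (Finset.range (p - 1))
    (fun i => (q i : Qb) * (ζ - 1) ^ i) hdist
  intro i hi
  by_cases hqi : q i = 0
  · rw [hqi, Rat.cast_zero, map_zero]
    exact zero_le
  obtain ⟨k, hk, hk'⟩ := hterm i hqi
  have h1 : lam ^ ((p - 1 : ℕ) * k + i) ≤ lam ^ (0 : ℤ) := by
    rw [zpow_zero, ← hk']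
    exact (hle i hi).trans hy
  have h2 : (0 : ℤ) ≤ ((p - 1 : ℕ) : ℤ) * k + i :=
    (zpow_right_strictAnti₀ hl0' hl1).le_iff_ge.mp h1
  have hi' := Finset.mem_range.mp hi
  have h3 : 0 ≤ k := by
    by_contra hneg
    push Not at hneg
    have h4 : ((p - 1 : ℕ) : ℤ) * k ≤ ((p - 1 : ℕ) : ℤ) * (-1) := by
      apply mul_le_mul_of_nonneg_left (by omega) (by positivity)
    omega
  rw [hk]
  have h5 : lam ^ ((p - 1 : ℕ) * k) ≤ lam ^ (0 : ℤ) := by
    apply (zpow_right_strictAnti₀ hl0' hl1).le_iff_ge.mpr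
    positivity
  rwa [zpow_zero] at h5

/-- Every element of `ℚ(ζ) ∩ A` is congruent to a rational integer modulo `(ζ - 1) A`. -/
theorem exists_int_sub_le {ζ : Qb} (hp : p.Prime) (hA : A.LiesOverPrime p)
    (hζ : IsPrimitiveRoot ζ p) {y : Qb} (hy : y ∈ ℚ⟮ζ⟯) (hy1 : A.valuation y ≤ 1) :
    ∃ m : ℤ, A.valuation (y - (m : Qb)) ≤ A.valuation (ζ - 1) := by
  obtain ⟨q, hq⟩ := exists_lam_expansion hp hζ hy
  have hcoef := val_coeff_le_one hp hA hζ q (hq ▸ hy1)
  obtain ⟨n, hn⟩ : ∃ n, p - 1 = n + 1 := ⟨p - 2, by have := hp.two_le; omega⟩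
  rw [hn] at hq hcoef
  obtain ⟨m, hm⟩ := exists_int_sub_rat (L := Qb) hp hA (q 0)
    (hcoef 0 (Finset.mem_range.mpr (Nat.succ_pos n)))
  refine ⟨m, ?_⟩
  rw [hq, Finset.sum_range_succ', pow_zero, mul_one, add_sub_assoc]
  refine (Valuation.map_add _ _ _).trans (max_le ?_ ?_)
  · apply Valuation.map_sum_le
    intro i hi
    have hi' := Finset.mem_range.mp hi
    rw [map_mul, map_pow]
    have h1 : A.valuation (q (i + 1) : Qb) ≤ 1 :=
      hcoef (i + 1) (Finset.mem_range.mpr (Nat.succ_lt_succ hi'))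
    have h2 : A.valuation (ζ - 1) ^ (i + 1) ≤ A.valuation (ζ - 1) ^ 1 :=
      pow_le_pow_of_le_one zero_le (val_lam_lt_one hp hA hζ).le (Nat.succ_le_succ (Nat.zero_le i))
    calc A.valuation (q (i + 1) : Qb) * A.valuation (ζ - 1) ^ (i + 1)
        ≤ 1 * A.valuation (ζ - 1) ^ 1 := mul_le_mul' h1 h2
      _ = A.valuation (ζ - 1) := by rw [one_mul, pow_one]
  · refine hm.trans ?_
    have := val_prime_le_lam_pow (A := A) hp hA hζ (k := 1) (by omega)
    rwa [pow_one] at this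

/-- An element of `ℚ(ζ)` which is a non-unit of `A` is divisible by `ζ - 1` in `A`. -/
theorem val_le_lam_of_lt_one {ζ : Qb} (hp : p.Prime) (hA : A.LiesOverPrime p)
    (hζ : IsPrimitiveRoot ζ p) {c : Qb} (hc : c ∈ ℚ⟮ζ⟯) (hc1 : A.valuation c < 1) :
    A.valuation c ≤ A.valuation (ζ - 1) := by
  obtain ⟨m, hm⟩ := exists_int_sub_le hp hA hζ hc hc1.le
  have hl1 : A.valuation (ζ - 1) < 1 := val_lam_lt_one hp hA hζ
  have h1 : A.valuation (m : Qb) < 1 := by
    have h2 : (m : Qb) = c - (c - m) := by ring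
    rw [h2]
    exact (Valuation.map_sub _ _ _).trans_lt (max_lt hc1 (hm.trans_lt hl1))
  have h3 : (p : ℤ) ∣ m := Fermat.Agent.S54.dvd_of_intCast_mem_nonunits A p hp hA m
    ((ValuationSubring.mem_nonunits_iff (A := A)).mpr h1)
  have h4 : A.valuation (m : Qb) ≤ A.valuation (ζ - 1) := by
    obtain ⟨d, rfl⟩ := h3
    push_cast
    rw [map_mul]
    have h5 := val_prime_le_lam_pow (A := A) hp hA hζ (k := 1)
      (by have := hp.two_le; omega)
    rw [pow_one] at h5
    calc A.valuation (p : Qb) * A.valuation (d : Qb)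
        ≤ A.valuation (ζ - 1) * 1 := by
          gcongr
          exact val_int_le_one d
      _ = A.valuation (ζ - 1) := mul_one _
  have h6 : c = (c - m) + m := by ring
  rw [h6]
  exact (Valuation.map_add _ _ _).trans (max_le hm h4)

end Fermat.Agent.S14.H366
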