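import Mathlib
import Fermat.Prelude.Def_FLTPrelim_Ramification
import Fermat.Agent.S14.H366.Expand
import Fermat.Agent.S14.H366.L834.Core

/-!
# S14, block LOCAL-D (helper366)

`A` a valuation subring of `ℚ̄` over the odd prime `p`, `ζ` a primitive `p`-th root of unity,
`K = ℚ(ζ)`, `b` an `A`-unit with `b ^ p ∈ K`, fixed by every element of the decomposition group
of `A` fixing `ζ`.  Then `b ^ p` is congruent to a rational integer modulo `(ζ - 1) ^ 3 A`
(even modulo `(ζ - 1) ^ p A`).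

Proof.  `b ^ p ≡ m₀ mod (ζ - 1)` for some integer `m₀` (`exists_int_sub_le`), so `x = b - m₀` is
a non-unit.  If `v x > v (ζ - 1)` then all conjugates `ζ ^ j b - m₀` of `x` over `K` have the
same value, `v x ^ p = v (b ^ p - m₀ ^ p)` is a value of `K` while `v x` is not (the values of
`K` are the powers of `v (ζ - 1)`), and helper834's core theorem `exists_inertia_agreeing` shows
that every automorphism over `K` agrees on `x` with an inertia element over `K`, which fixes `x`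
by hypothesis; hence `x ∈ K`, a contradiction.  So `x ∈ (ζ - 1) A` and the binomial theorem
gives `b ^ p ≡ m₀ ^ p mod (ζ - 1) ^ p`.
-/

set_option autoImplicit false
set_option linter.style.haveILetI false

open Polynomial IntermediateField

namespace Fermat.Agent.S14.H366

open Fermat.Agent.S14.H366.L834 (Qb GQ Indep exists_inertia_agreeing)

variable {A : ValuationSubring Qb} {p : ℕ}

/-- An algebraic number outside `K` is moved by some automorphism fixing `K`. -/
theorem exists_fixing_ne' {K : IntermediateField ℚ Qb} {x : Qb} (hx : x ∉ K) :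
    ∃ σ : GQ, (∀ c ∈ K, σ c = c) ∧ σ x ≠ x := by
  haveI := Fermat.Agent.S54.isGalois_algebraicClosure_rat
  by_contra hcon
  push Not at hcon
  apply hx
  rw [← InfiniteGalois.fixedField_fixingSubgroup K]
  rintro ⟨σ, hσ⟩
  exact hcon σ ((IntermediateField.mem_fixingSubgroup_iff K σ).mp hσ)

/-- Binomial theorem for a prime exponent, with control of the valuation of the cofactor. -/
theorem exists_add_pow_prime_val (hp : p.Prime) {u w : Qb} (hu : A.valuation u ≤ 1)
    (hw : A.valuation w ≤ 1) :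
    ∃ r : Qb, A.valuation r ≤ 1 ∧ (u + w) ^ p = u ^ p + w ^ p + p * u * w * r := by
  refine ⟨_, ?_, add_pow_prime_eq hp u w⟩
  apply Valuation.map_sum_le
  intro k _
  rw [map_mul, map_mul, map_pow, map_pow]
  calc A.valuation u ^ (k - 1) * A.valuation w ^ (p - k - 1) *
        A.valuation ((p.choose k / p : ℕ) : Qb)
      ≤ 1 * 1 * 1 :=
        mul_le_mul' (mul_le_mul' (pow_le_one₀ zero_le hu) (pow_le_one₀ zero_le hw))
          (val_nat_le_one _)
    _ = 1 := by rw [one_mul, one_mul]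

/-- If `v x ^ p` is a value of `Kˣ` but `v x` is not, then `v x ^ i` is not a value of `Kˣ`
for `0 < i < p`. -/
theorem indep_of_prime_val {K : IntermediateField ℚ Qb} (hp : p.Prime) {x N : Qb}
    (hx0 : x ≠ 0) (hN : N ∈ K) (hNv : A.valuation N = A.valuation x ^ p)
    (h : ∀ c ∈ K, c ≠ 0 → A.valuation x ≠ A.valuation c) : Indep K A x p := by
  intro i hi hip c hc hc0 heq
  have hcop : Nat.Coprime i p :=
    Nat.Coprime.symm ((Nat.Prime.coprime_iff_not_dvd hp).mpr (Nat.not_dvd_of_pos_of_lt hi hip))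
  have hbez : (i : ℤ) * Nat.gcdA i p + (p : ℤ) * Nat.gcdB i p = 1 := by
    have := Nat.gcd_eq_gcd_ab i p
    rw [hcop.gcd_eq_one] at this
    exact_mod_cast this.symm
  set a := Nat.gcdA i p
  set b := Nat.gcdB i p
  have hvx : A.valuation x ≠ 0 := (Valuation.ne_zero_iff _).mpr hx0
  have hN0 : N ≠ 0 := by
    rw [← Valuation.ne_zero_iff A.valuation, hNv]
    exact pow_ne_zero p hvx
  apply h (c ^ a * N ^ b) (K.mul_mem (zpow_mem hc a) (zpow_mem hN b))
    (mul_ne_zero (zpow_ne_zero a hc0) (zpow_ne_zero b hN0))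
  rw [map_mul, map_zpow₀, map_zpow₀, hNv, heq, ← zpow_natCast, ← zpow_natCast,
    ← zpow_mul, ← zpow_mul, ← zpow_add₀ hvx, hbez, zpow_one]

/-- For a root of unity `ξ`: `v (ξ b - m) = v (b - m)` as soon as `v (b - m) > v (ζ - 1)`. -/
theorem val_root_mul_sub {ζ : Qb} (hp : p.Prime) (hζ : IsPrimitiveRoot ζ p) {b : Qb}
    (hb : A.valuation b ≤ 1) (m : Qb) (hlt : A.valuation (ζ - 1) < A.valuation (b - m))
    (j : ℕ) : A.valuation (ζ ^ j * b - m) = A.valuation (b - m) := by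
  have h1 : ζ ^ j * b - m = (b - m) + (ζ ^ j - 1) * b := by ring
  rw [h1]
  apply Valuation.map_add_eq_of_lt_left
  rw [map_mul]
  calc A.valuation (ζ ^ j - 1) * A.valuation b
      ≤ A.valuation (ζ - 1) * 1 :=
        mul_le_mul' (val_pow_sub_one_le (val_root_eq_one hp hζ).le j) hb
    _ = A.valuation (ζ - 1) := mul_one _
    _ < A.valuation (b - m) := hlt

/-- **LOCAL-D**, key step: `b ≡ m₀ mod (ζ - 1) A` for a rational integer `m₀`. -/
theorem exists_int_sub_le_of_decomposition (hp : p.Prime) (hp3 : 3 ≤ p) {ζ : Qb}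
    (hζ : IsPrimitiveRoot ζ p) (hA : A.LiesOverPrime p) {b : Qb} (hbp : b ^ p ∈ ℚ⟮ζ⟯)
    (hb1 : A.valuation b = 1)
    (hD : ∀ σ ∈ A.decompositionSubgroup ℚ, σ ζ = ζ → σ b = b) :
    ∃ m₀ : ℤ, A.valuation (b - (m₀ : Qb)) ≤ A.valuation (ζ - 1) := by
  have hodd : Odd p := hp.odd_of_ne_two (by omega)
  have hl1 : A.valuation (ζ - 1) < 1 := val_lam_lt_one hp hA hζ
  have hζK : ζ ∈ ℚ⟮ζ⟯ := mem_adjoin_simple_self ℚ ζ
  have hbp1 : A.valuation (b ^ p) ≤ 1 := by rw [map_pow, hb1, one_pow]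
  obtain ⟨m₀, hm₀⟩ := exists_int_sub_le hp hA hζ hbp hbp1
  refine ⟨m₀, ?_⟩
  by_contra hcon
  push Not at hcon
  set x : Qb := b - (m₀ : Qb) with hx
  have hx0 : x ≠ 0 := by
    intro h0
    rw [h0, map_zero] at hcon
    exact not_lt_zero hcon
  -- the norm of `x`
  have hNK : b ^ p - (m₀ : Qb) ^ p ∈ ℚ⟮ζ⟯ :=
    sub_mem hbp (pow_mem (intCast_mem _ m₀) p)
  have hNv : A.valuation (b ^ p - (m₀ : Qb) ^ p) = A.valuation x ^ p := by
    have h1 := X_pow_sub_C_eq_prod hζ hp.pos (rfl : b ^ p = b ^ p)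
    have h2 := congrArg (Polynomial.eval (m₀ : Qb)) h1
    rw [eval_sub, eval_pow, eval_X, eval_C, eval_prod] at h2
    simp only [eval_sub, eval_X, eval_C] at h2
    rw [← Valuation.map_neg, neg_sub, h2, map_prod]
    have h3 : ∀ i ∈ Finset.range p, A.valuation ((m₀ : Qb) - ζ ^ i * b) = A.valuation x := by
      intro i _
      rw [← Valuation.map_neg, neg_sub]
      exact val_root_mul_sub hp hζ hb1.le _ hcon i
    rw [Finset.prod_congr rfl h3, Finset.prod_const, Finset.card_range]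
  -- `v x` is not a value of `K`
  have hnot : ∀ c ∈ ℚ⟮ζ⟯, c ≠ 0 → A.valuation x ≠ A.valuation c := by
    intro c hc _ heq
    have hx1 : A.valuation x < 1 := by
      -- `x ^ p` is a non-unit
      have h4 : A.valuation (x ^ p) < 1 := by
        obtain ⟨r, hr, hexp⟩ := exists_add_pow_prime_val (A := A) hp (u := b)
          (w := -(m₀ : Qb)) hb1.le (by rw [Valuation.map_neg]; exact val_int_le_one m₀)
        have h5 : x ^ p = (b ^ p - (m₀ : Qb)) + (((m₀ - m₀ ^ p : ℤ) : Qb) +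
            p * b * (-(m₀ : Qb)) * r) := by
          rw [hx, sub_eq_add_neg b, hexp, hodd.neg_pow]
          push_cast
          ring
        rw [h5]
        refine (Valuation.map_add _ _ _).trans_lt (max_lt (hm₀.trans_lt hl1) ?_)
        refine (Valuation.map_add _ _ _).trans_lt (max_lt ?_ ?_)
        · have h6 : (p : ℤ) ∣ m₀ - m₀ ^ p := by
            rw [← Int.modEq_iff_dvd]
            exact Int.ModEq.pow_prime_eq_self hp m₀
          obtain ⟨d, hd⟩ := h6
          rw [hd]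
          push_cast
          rw [map_mul]
          calc A.valuation (p : Qb) * A.valuation (d : Qb)
              ≤ A.valuation (p : Qb) * 1 := mul_le_mul' le_rfl (val_int_le_one d)
            _ = A.valuation (p : Qb) := mul_one _
            _ < 1 := val_prime_lt_one hA
        · rw [map_mul, map_mul, map_mul, Valuation.map_neg]
          calc A.valuation (p : Qb) * A.valuation b * A.valuation (m₀ : Qb) * A.valuation r
              ≤ A.valuation (p : Qb) * 1 * 1 * 1 :=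
                mul_le_mul' (mul_le_mul' (mul_le_mul' le_rfl hb1.le) (val_int_le_one m₀)) hr
            _ = A.valuation (p : Qb) := by rw [mul_one, mul_one, mul_one]
            _ < 1 := val_prime_lt_one hA
      rw [map_pow] at h4
      by_contra h7
      push Not at h7
      exact absurd h4 (not_lt.mpr (one_le_pow₀ h7))
    rw [heq] at hx1 hcon
    exact absurd (val_le_lam_of_lt_one hp hA hζ hc hx1) (not_le.mpr hcon)
  have hind : Indep ℚ⟮ζ⟯ A x p := indep_of_prime_val hp hx0 hNK hNv hnot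
  -- the polynomial killing `x`
  let α : ℚ⟮ζ⟯ := ⟨b ^ p, hbp⟩
  let μ : ℚ⟮ζ⟯ := ⟨(m₀ : Qb), intCast_mem _ m₀⟩
  set f : Polynomial ℚ⟮ζ⟯ := (X ^ p - C α).comp (X + C μ) with hf
  have hfm : f.Monic := (monic_X_pow_sub_C α hp.ne_zero).comp_X_add_C μ
  have hfd : f.natDegree = p := by
    rw [hf, natDegree_comp, natDegree_X_add_C, mul_one, natDegree_X_pow_sub_C]
  have hfx : aeval x f = 0 := by
    rw [hf, aeval_comp, map_add, aeval_X, aeval_C, map_sub, map_pow, aeval_X, aeval_C]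
    show (x + (m₀ : Qb)) ^ p - b ^ p = 0
    rw [hx, sub_add_cancel, sub_self]
  -- conjugates of `x` over `K`
  have hconjb : ∀ σ : GQ, (∀ c ∈ ℚ⟮ζ⟯, σ c = c) → ∃ j : ℕ, σ b = ζ ^ j * b := by
    intro σ hσ
    have hb0 : b ≠ 0 := by
      rw [← Valuation.ne_zero_iff A.valuation, hb1]
      exact one_ne_zero
    have h1 : (σ b / b) ^ p = 1 := by
      rw [div_pow, ← map_pow, hσ _ hbp, div_self (pow_ne_zero p hb0)]
    haveI : NeZero p := ⟨hp.ne_zero⟩
    obtain ⟨j, -, hj⟩ := hζ.eq_pow_of_pow_eq_one h1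
    refine ⟨j, ?_⟩
    rw [hj, div_mul_cancel₀ _ hb0]
  have hconj : ∀ σ : GQ, (∀ c ∈ ℚ⟮ζ⟯, σ c = c) → A.valuation (σ x) = A.valuation x := by
    intro σ hσ
    obtain ⟨j, hj⟩ := hconjb σ hσ
    rw [hx, map_sub, map_intCast, hj]
    exact val_root_mul_sub hp hζ hb1.le _ hcon j
  -- every automorphism over `K` fixes `x`
  have hfix : ∀ σ₀ : GQ, (∀ c ∈ ℚ⟮ζ⟯, σ₀ c = c) → σ₀ x = x := by
    intro σ₀ hσ₀
    obtain ⟨σ₂, hσ₂I, hσ₂K, ν, -, hνx, hσ₂x⟩ :=
      exists_inertia_agreeing hp hA f hfm hfd hfx hind hconj σ₀ hσ₀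
    have hσ₂D : σ₂ ∈ A.decompositionSubgroup ℚ := by
      obtain ⟨d, -, rfl⟩ := hσ₂I
      exact d.2
    have h1 : σ₂ b = b := hD σ₂ hσ₂D (hσ₂K ζ hζK)
    have h2 : σ₂ x = x := by rw [hx, map_sub, map_intCast, h1]
    rw [h2] at hσ₂x
    apply ν.injective
    rw [← hσ₂x, hνx]
  have hxK : x ∈ ℚ⟮ζ⟯ := by
    by_contra hxK
    obtain ⟨σ, hσK, hσx⟩ := exists_fixing_ne' hxK
    exact hσx (hfix σ hσK)
  exact hnot x hxK hx0 rfl

/-- **LOCAL-D**, strong form: `b ^ p` is congruent to a rational integer modulo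
`(ζ - 1) ^ p A`. -/
theorem localD_strong (hp : p.Prime) (hp3 : 3 ≤ p) {ζ : Qb}
    (hζ : IsPrimitiveRoot ζ p) (hA : A.LiesOverPrime p) {b : Qb} (hbp : b ^ p ∈ ℚ⟮ζ⟯)
    (hb1 : A.valuation b = 1)
    (hD : ∀ σ ∈ A.decompositionSubgroup ℚ, σ ζ = ζ → σ b = b) :
    ∃ m : ℤ, A.valuation (b ^ p - (m : Qb)) ≤ A.valuation (ζ - 1) ^ p := by
  obtain ⟨m₀, hm₀⟩ := exists_int_sub_le_of_decomposition hp hp3 hζ hA hbp hb1 hD
  refine ⟨m₀ ^ p, ?_⟩
  set x : Qb := b - (m₀ : Qb) with hx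
  have hl1 : A.valuation (ζ - 1) < 1 := val_lam_lt_one hp hA hζ
  have hx1 : A.valuation x ≤ 1 := hm₀.trans hl1.le
  obtain ⟨r, hr, hexp⟩ := exists_add_pow_prime_val (A := A) hp (u := x)
    (w := (m₀ : Qb)) hx1 (val_int_le_one m₀)
  have h1 : b ^ p - ((m₀ ^ p : ℤ) : Qb) = x ^ p + p * x * (m₀ : Qb) * r := by
    have h2 : b = x + (m₀ : Qb) := by rw [hx, sub_add_cancel]
    rw [h2, hexp]
    push_cast
    ring
  rw [h1]
  refine (Valuation.map_add _ _ _).trans (max_le ?_ ?_)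
  · rw [map_pow]
    exact pow_le_pow_left₀ zero_le hm₀ p
  · rw [map_mul, map_mul, map_mul]
    have h3 : A.valuation (p : Qb) = A.valuation (ζ - 1) ^ (p - 1) := (val_lam_pow hp hζ).symm
    calc A.valuation (p : Qb) * A.valuation x * A.valuation (m₀ : Qb) * A.valuation r
        ≤ A.valuation (ζ - 1) ^ (p - 1) * A.valuation (ζ - 1) * 1 * 1 :=
          mul_le_mul' (mul_le_mul' (mul_le_mul' h3.le hm₀) (val_int_le_one m₀)) hr
      _ = A.valuation (ζ - 1) ^ p := by
          rw [mul_one, mul_one, ← pow_succ, Nat.sub_add_cancel hp.one_le]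

/-- **LOCAL-D**, in the shape of `H554.LocalDInput`. -/
theorem localD (p : ℕ) [hpf : Fact p.Prime] (hp3 : 3 ≤ p) (ζ : AlgebraicClosure ℚ)
    (hζ : IsPrimitiveRoot ζ p) :
    ∀ (A : ValuationSubring (AlgebraicClosure ℚ)), A.LiesOverPrime p →
    ∀ (b : AlgebraicClosure ℚ), b ^ p ∈ ℚ⟮ζ⟯ → A.valuation b = 1 →
      (∀ σ ∈ A.decompositionSubgroup ℚ, σ ζ = ζ → σ b = b) →
      ∃ m : ℤ, A.valuation (b ^ p - (m : AlgebraicClosure ℚ)) ≤ A.valuation ((ζ - 1) ^ 3) := by
  intro A hA b hbp hb1 hD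
  obtain ⟨m, hm⟩ := localD_strong hpf.out hp3 hζ hA hbp hb1 hD
  refine ⟨m, hm.trans ?_⟩
  rw [map_pow]
  exact pow_le_pow_of_le_one zero_le (val_lam_lt_one hpf.out hA hζ).le hp3

end Fermat.Agent.S14.H366
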