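import Mathlib
import Fermat.Agent.S14.Spec
import Fermat.Agent.S14.H714.LocalI
import Fermat.Agent.S14.Red734.Adapter
import Fermat.Agent.S14.H366.LocalD

/-!
# S14, block B1 complete (helper366): `Spec.ReductionStatement`

Assembly of the pieces on main: GALOIS (`H714.galois_input`, wired into
`Red734.reductionStatement_of_local`), LOCAL-I (`H714.local_I`) and LOCAL-D (`H366.localD`).
-/

set_option autoImplicit false

namespace Fermat.Agent.S14.H366

/-- **Block B1.** A non-split admissible extension produces a Kummer datum which is not a
`p`-th power. -/
theorem reductionStatement : Spec.ReductionStatement :=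
  Red734.reductionStatement_of_local
    (fun p _ _ _ hζ A b hb hbp hI => H714.local_I hζ A b hb hbp hI)
    (fun p _ hp3 ζ hζ => localD p hp3 ζ hζ)

end Fermat.Agent.S14.H366
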